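/-
S14 / K5 (UDIR), helper99.  Infinite places of `ℚ(ζ_p)` and the Galois action on them.
-/
import Mathlib

set_option autoImplicit false
set_option linter.unusedSectionVars false
set_option linter.unusedVariables false
set_option linter.style.haveILetI false

namespace Fermat.Agent.S14.UDir99

open NumberField NumberField.InfinitePlace

/-- for a primitive `p`-th root of unity `z` in a field, `z ^ d = z ↔ d ≡ 1 mod p`. -/
theorem prim_pow_eq_self_iff {F : Type*} [Field F] {p : ℕ} {z : F} (hz : IsPrimitiveRoot z p)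
    (hp0 : p ≠ 0) (d : ℕ) : z ^ d = z ↔ (d : ZMod p) = 1 := by
  have hz0 : z ≠ 0 := hz.ne_zero hp0
  have h1 : z ^ d = z ↔ z ^ ((d : ℤ) - 1) = 1 := by
    rw [zpow_sub₀ hz0, zpow_natCast, zpow_one, div_eq_one_iff_eq hz0]
  rw [h1, hz.zpow_eq_one_iff_dvd]
  have h2 : ((d : ℕ) : ZMod p) = 1 ↔ (((d : ℤ) - 1 : ℤ) : ZMod p) = 0 := by
    push_cast
    rw [sub_eq_zero]
  rw [h2, ZMod.intCast_zmod_eq_zero_iff_dvd]

/-- for a primitive `p`-th root of unity `z` in a field, `z ^ d = z⁻¹ ↔ d ≡ -1 mod p`. -/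
theorem prim_pow_eq_inv_iff {F : Type*} [Field F] {p : ℕ} {z : F} (hz : IsPrimitiveRoot z p)
    (hp0 : p ≠ 0) (d : ℕ) : z ^ d = z⁻¹ ↔ (d : ZMod p) = -1 := by
  have hz0 : z ≠ 0 := hz.ne_zero hp0
  have h1 : z ^ d = z⁻¹ ↔ z ^ (d + 1) = 1 := by
    rw [pow_succ]
    constructor
    · intro h; rw [h, inv_mul_cancel₀ hz0]
    · intro h; exact eq_inv_of_mul_eq_one_left h
  rw [h1, hz.pow_eq_one_iff_dvd, ← ZMod.natCast_eq_zero_iff]
  push_cast
  exact ⟨fun h => eq_neg_of_add_eq_zero_left h, fun h => by rw [h, neg_add_cancel]⟩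

variable {p : ℕ} [Fact p.Prime] {K : Type*} [Field K] [NumberField K]
  [IsCyclotomicExtension {p} ℚ K]

theorem card_infinitePlace_cyclo (hp : p ≠ 2) :
    Fintype.card (InfinitePlace K) = (p - 1) / 2 := by
  have hp' := (Fact.out : p.Prime)
  haveI : NeZero p := ⟨hp'.ne_zero⟩
  have h2 : 2 < p := lt_of_le_of_ne hp'.two_le (Ne.symm hp)
  rw [card_eq_nrRealPlaces_add_nrComplexPlaces, IsCyclotomicExtension.Rat.nrRealPlaces_eq_zero K h2,
    IsCyclotomicExtension.Rat.nrComplexPlaces_eq_totient_div_two p K, Nat.totient_prime hp',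
    zero_add]

theorem ringHom_ext_zeta {ζ : K} (hζ : IsPrimitiveRoot ζ p) (f g : K →+* ℂ) (h : f ζ = g ζ) :
    f = g := by
  haveI : NeZero p := ⟨(Fact.out : p.Prime).ne_zero⟩
  have htop := IsCyclotomicExtension.adjoin_primitive_root_eq_top (A := ℚ) (B := K) hζ
  have h1 : f.toRatAlgHom = g.toRatAlgHom := by
    apply AlgHom.ext_of_adjoin_eq_top htop
    intro x hx
    rw [Set.mem_singleton_iff] at hx
    subst hx
    exact h
  ext x
  exact DFunLike.congr_fun h1 x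

theorem smul_place_eq_iff {ζ : K} (hζ : IsPrimitiveRoot ζ p) (τ : K ≃ₐ[ℚ] K) (d : ℕ)
    (hτ : τ ζ = ζ ^ d) (w : InfinitePlace K) :
    τ⁻¹ • w = w ↔ ((d : ZMod p) = 1 ∨ (d : ZMod p) = -1) := by
  have hp' := (Fact.out : p.Prime)
  obtain ⟨φ, rfl⟩ : ∃ φ, mk φ = w := ⟨w.embedding, mk_embedding w⟩
  have hzp : IsPrimitiveRoot (φ ζ) p := hζ.map_of_injective φ.injective
  have hnorm : ‖φ ζ‖ = 1 := hzp.norm'_eq_one hp'.ne_zero
  have hconj : (starRingEnd ℂ) (φ ζ) = (φ ζ)⁻¹ := (Complex.inv_eq_conj hnorm).symm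
  have hcomp : (φ.comp ((τ⁻¹).symm : K ≃ₐ[ℚ] K)) ζ = (φ ζ) ^ d := by
    show φ (τ ζ) = (φ ζ) ^ d
    rw [hτ, map_pow]
  have hA : φ.comp ((τ⁻¹).symm : K ≃ₐ[ℚ] K) = φ ↔ (d : ZMod p) = 1 := by
    rw [← prim_pow_eq_self_iff hzp hp'.ne_zero d, ← hcomp]
    exact ⟨fun h => DFunLike.congr_fun h ζ, fun h => ringHom_ext_zeta hζ _ _ h⟩
  have hB : ComplexEmbedding.conjugate (φ.comp ((τ⁻¹).symm : K ≃ₐ[ℚ] K)) = φ ↔
      (d : ZMod p) = -1 := by
    rw [← prim_pow_eq_inv_iff hzp hp'.ne_zero d]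
    have h1 : ComplexEmbedding.conjugate (φ.comp ((τ⁻¹).symm : K ≃ₐ[ℚ] K)) ζ = ((φ ζ) ^ d)⁻¹ := by
      rw [ComplexEmbedding.conjugate_coe_eq, hcomp, map_pow, hconj, inv_pow]
    constructor
    · intro h
      have h2 := DFunLike.congr_fun h ζ
      rw [h1] at h2
      exact inv_eq_iff_eq_inv.mp h2
    · intro h
      apply ringHom_ext_zeta hζ
      rw [h1, h, inv_inv]
  rw [smul_mk, mk_eq_iff, hA, hB]

end Fermat.Agent.S14.UDir99
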