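/-
S14 / K5 (UDIR), helper99.  Abstract linear algebra:
an endomorphism `T` of finite order `n` (prime to the characteristic) whose powers `T^i`,
`0 < i < n`, all have trace `-1` on a space of dimension `n - 1` ("regular representation minus the
trivial one") has all its eigenspaces for eigenvalues `lam ≠ 1`, `lam^n = 1`, of dimension `1`.
-/
import Mathlib

set_option autoImplicit false
set_option linter.unusedSectionVars false

namespace Fermat.Agent.S14.UDir99

open Module Finset

section field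

variable {F V : Type*} [Field F] [AddCommGroup V] [Module F V] [FiniteDimensional F V]

/-- the (unnormalised) projector onto the `lam`-eigenspace. -/
noncomputable def eigSum (T : V →ₗ[F] V) (n : ℕ) (lam : F) : V →ₗ[F] V :=
  ∑ i ∈ range n, (lam⁻¹) ^ i • T ^ i

theorem mul_eigSum (T : V →ₗ[F] V) (n : ℕ) (hT : T ^ n = 1) (lam : F) (hl : lam ^ n = 1)
    (hl0 : lam ≠ 0) : T * eigSum T n lam = lam • eigSum T n lam := by
  unfold eigSum
  have h1 : T * ∑ i ∈ range n, (lam⁻¹) ^ i • T ^ i
      = lam • ∑ i ∈ range n, (lam⁻¹) ^ (i + 1) • T ^ (i + 1) := by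
    rw [Finset.mul_sum, Finset.smul_sum]
    refine Finset.sum_congr rfl fun i _ => ?_
    rw [mul_smul_comm, smul_smul, pow_succ (lam⁻¹) i, ← mul_assoc, mul_comm lam, mul_assoc,
      mul_inv_cancel₀ hl0, mul_one, pow_succ' T i]
  rw [h1]
  congr 1
  have h2 := Finset.sum_range_succ' (fun i => (lam⁻¹) ^ i • T ^ i) n
  have h3 := Finset.sum_range_succ (fun i => (lam⁻¹) ^ i • T ^ i) n
  have h4 : (lam⁻¹) ^ n • T ^ n = (1 : V →ₗ[F] V) := by
    rw [hT, inv_pow, hl, inv_one, one_smul]
  simp only [pow_zero, one_smul] at h2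
  rw [h4] at h3
  rw [h3] at h2
  exact (add_right_cancel h2).symm

theorem eigSum_apply_of_mem (T : V →ₗ[F] V) (n : ℕ) (lam : F) (hl0 : lam ≠ 0) {x : V}
    (hx : T x = lam • x) : eigSum T n lam x = (n : F) • x := by
  have hpow : ∀ i : ℕ, (T ^ i) x = lam ^ i • x := by
    intro i
    induction i with
    | zero => simp
    | succ k ih =>
      rw [pow_succ', Module.End.mul_apply, ih, map_smul, hx, smul_smul, pow_succ]
  unfold eigSum
  rw [LinearMap.sum_apply]
  have : ∀ i ∈ range n, ((lam⁻¹) ^ i • T ^ i) x = x := by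
    intro i _
    rw [LinearMap.smul_apply, hpow, smul_smul, ← mul_pow, inv_mul_cancel₀ hl0, one_pow, one_smul]
  rw [Finset.sum_congr rfl this, Finset.sum_const, card_range, Nat.cast_smul_eq_nsmul]

theorem isProj_eigSum (T : V →ₗ[F] V) (n : ℕ) (hn : (n : F) ≠ 0) (hT : T ^ n = 1) (lam : F)
    (hl : lam ^ n = 1) :
    LinearMap.IsProj (Module.End.eigenspace T lam) ((n : F)⁻¹ • eigSum T n lam) := by
  have hn0 : n ≠ 0 := by rintro rfl; simp at hn
  have hl0 : lam ≠ 0 := by
    rintro rfl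
    rw [zero_pow hn0] at hl
    exact zero_ne_one hl
  constructor
  · intro x
    rw [Module.End.mem_eigenspace_iff, LinearMap.smul_apply, map_smul]
    have := congrArg (fun f : V →ₗ[F] V => f x) (mul_eigSum T n hT lam hl hl0)
    simp only [Module.End.mul_apply, LinearMap.smul_apply] at this
    rw [this, smul_comm]
  · intro x hx
    rw [Module.End.mem_eigenspace_iff] at hx
    rw [LinearMap.smul_apply, eigSum_apply_of_mem T n lam hl0 hx, smul_smul, inv_mul_cancel₀ hn,
      one_smul]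

theorem trace_eigSum (T : V →ₗ[F] V) (n : ℕ) (hn : (n : F) ≠ 0) (lam : F) (hl : lam ^ n = 1)
    (hl1 : lam ≠ 1)
    (htr : ∀ i, 0 < i → i < n → LinearMap.trace F V (T ^ i) = -1)
    (hdim : (Module.finrank F V : F) = n - 1) :
    LinearMap.trace F V ((n : F)⁻¹ • eigSum T n lam) = 1 := by
  have hn0 : n ≠ 0 := by rintro rfl; simp at hn
  obtain ⟨m, rfl⟩ := Nat.exists_eq_succ_of_ne_zero hn0
  have hmu1 : lam⁻¹ ≠ 1 := by
    intro h
    exact hl1 (by rw [← inv_inv lam, h, inv_one])
  have hmun : (lam⁻¹) ^ (m + 1) = 1 := by rw [inv_pow, hl, inv_one]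
  have hgeom : ∑ i ∈ range (m + 1), (lam⁻¹) ^ i = 0 := by
    rw [geom_sum_eq hmu1, hmun, sub_self, zero_div]
  unfold eigSum
  rw [map_smul, map_sum]
  have hterm : ∀ i ∈ range (m + 1), LinearMap.trace F V ((lam⁻¹) ^ i • T ^ i)
      = (if i = 0 then ((m + 1 : ℕ) : F) else 0) - (lam⁻¹) ^ i := by
    intro i hi
    rw [map_smul, smul_eq_mul]
    by_cases h0 : i = 0
    · subst h0
      simp only [pow_zero, one_mul, if_true]
      rw [show (1 : V →ₗ[F] V) = LinearMap.id from rfl, LinearMap.trace_id, hdim]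
    · rw [if_neg h0, htr i (Nat.pos_of_ne_zero h0) (Finset.mem_range.mp hi)]
      ring
  rw [Finset.sum_congr rfl hterm, Finset.sum_sub_distrib, hgeom, sub_zero,
    Finset.sum_ite_eq' (range (m + 1)) 0 (fun _ => ((m + 1 : ℕ) : F)),
    if_pos (Finset.mem_range.mpr (Nat.succ_pos m)), smul_eq_mul, inv_mul_cancel₀ hn]

/-- the `lam`-eigenspace has dimension `≡ 1` in `F`. -/
theorem finrank_eigenspace_cast (T : V →ₗ[F] V) (n : ℕ) (hn : (n : F) ≠ 0) (hT : T ^ n = 1)
    (lam : F) (hl : lam ^ n = 1) (hl1 : lam ≠ 1)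
    (htr : ∀ i, 0 < i → i < n → LinearMap.trace F V (T ^ i) = -1)
    (hdim : (Module.finrank F V : F) = n - 1) :
    (Module.finrank F (Module.End.eigenspace T lam) : F) = 1 := by
  rw [← (isProj_eigSum T n hn hT lam hl).trace, trace_eigSum T n hn lam hl hl1 htr hdim]

end field

section zmod

variable {p : ℕ} [Fact p.Prime] {V : Type*} [AddCommGroup V] [Module (ZMod p) V]
  [FiniteDimensional (ZMod p) V]

/-- Over `ZMod p`, when moreover `dim V < p`, the eigenspace is a line. -/
theorem exists_smul_eq_of_eigen (T : V →ₗ[ZMod p] V) (n : ℕ) (hn : (n : ZMod p) ≠ 0)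
    (hT : T ^ n = 1) (lam : ZMod p) (hl : lam ^ n = 1) (hl1 : lam ≠ 1)
    (htr : ∀ i, 0 < i → i < n → LinearMap.trace (ZMod p) V (T ^ i) = -1)
    (hdim : Module.finrank (ZMod p) V + 1 = n) (hlt : n ≤ p)
    {x y : V} (hx : T x = lam • x) (hy : T y = lam • y) (hx0 : x ≠ 0) :
    ∃ a : ZMod p, y = a • x := by
  have hdim' : (Module.finrank (ZMod p) V : ZMod p) = n - 1 := by
    rw [← hdim]; push_cast; ring
  have h1 := finrank_eigenspace_cast T n hn hT lam hl hl1 htr hdim'
  set d := Module.finrank (ZMod p) (Module.End.eigenspace T lam) with hd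
  have hdle : d ≤ Module.finrank (ZMod p) V := Submodule.finrank_le _
  have hdlt : d < p := by omega
  have hp1 : 1 < p := (Fact.out : p.Prime).one_lt
  have hd1 : d = 1 := by
    have h2 : ((d : ℕ) : ZMod p) = ((1 : ℕ) : ZMod p) := by simpa using h1
    have := congrArg ZMod.val h2
    rwa [ZMod.val_natCast_of_lt hdlt, ZMod.val_natCast_of_lt hp1] at this
  have hxm : x ∈ Module.End.eigenspace T lam := Module.End.mem_eigenspace_iff.mpr hx
  have hym : y ∈ Module.End.eigenspace T lam := Module.End.mem_eigenspace_iff.mpr hy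
  have hx0' : (⟨x, hxm⟩ : Module.End.eigenspace T lam) ≠ 0 := by
    intro h; exact hx0 (congrArg Subtype.val h)
  obtain ⟨c, hc⟩ := (finrank_eq_one_iff_of_nonzero' _ hx0').mp hd1 ⟨y, hym⟩
  exact ⟨c, (congrArg Subtype.val hc).symm⟩

end zmod

end Fermat.Agent.S14.UDir99
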