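/-
S14 / K5 (UDIR), helper99.  Integer-matrix form of `LinAlg.exists_smul_eq_of_eigen`.
-/
import Mathlib
import Fermat.Agent.S14.UDir99.LinAlg

set_option autoImplicit false

namespace Fermat.Agent.S14.UDir99

open Module Finset Matrix

/-- Let `A` be an integer matrix of size `r = n - 1` with `A ^ n = 1` and `tr (A ^ i) = -1` for
`0 < i < n`.  Let `p` be a prime with `n ≤ p`, `p ∤ n`, and `m` an integer of order dividing `n`
mod `p`, `m ≢ 1`.  Then two integer vectors which are eigenvectors of `A` mod `p` for the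
eigenvalue `m` are proportional mod `p` (if the first one is non-zero mod `p`). -/
theorem exists_int_smul_eq_mod {p : ℕ} [Fact p.Prime] {r : ℕ} (A : Matrix (Fin r) (Fin r) ℤ)
    (n : ℕ) (hn : r + 1 = n) (hnp : n ≤ p) (hnp' : ¬ p ∣ n)
    (hA : A ^ n = 1) (htr : ∀ i, 0 < i → i < n → (A ^ i).trace = -1)
    (m : ℤ) (hm : (m : ZMod p) ^ n = 1) (hm1 : (m : ZMod p) ≠ 1)
    (x y : Fin r → ℤ)
    (hx : ∀ i, (p : ℤ) ∣ (A.mulVec x) i - m * x i)
    (hy : ∀ i, (p : ℤ) ∣ (A.mulVec y) i - m * y i)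
    (hx0 : ∃ i, ¬ (p : ℤ) ∣ x i) :
    ∃ a : ℤ, ∀ i, (p : ℤ) ∣ y i - a * x i := by
  classical
  set φ : ℤ →+* ZMod p := Int.castRingHom (ZMod p) with hφ
  set Abar : Matrix (Fin r) (Fin r) (ZMod p) := φ.mapMatrix A with hAbar
  set T : (Fin r → ZMod p) →ₗ[ZMod p] (Fin r → ZMod p) := Matrix.toLin' Abar with hTdef
  have hpow : ∀ i : ℕ, T ^ i = Matrix.toLin' (φ.mapMatrix (A ^ i)) := by
    intro i
    rw [hTdef, ← Matrix.toLin'_pow, hAbar, ← map_pow φ.mapMatrix A i]
  have hT : T ^ n = 1 := by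
    rw [hpow, hA, map_one, Matrix.toLin'_one]; rfl
  have htrT : ∀ i, 0 < i → i < n → LinearMap.trace (ZMod p) _ (T ^ i) = -1 := by
    intro i h0 hi
    rw [hpow, Matrix.trace_toLin'_eq, RingHom.mapMatrix_apply, ← AddMonoidHom.map_trace,
      htr i h0 hi]
    simp
  have hn' : ((n : ℕ) : ZMod p) ≠ 0 := by
    rwa [Ne, ZMod.natCast_eq_zero_iff]
  have hdim : Module.finrank (ZMod p) (Fin r → ZMod p) + 1 = n := by
    rw [Module.finrank_fintype_fun_eq_card, Fintype.card_fin, hn]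
  -- reductions of vectors
  have key : ∀ z : Fin r → ℤ, (∀ i, (p : ℤ) ∣ (A.mulVec z) i - m * z i) →
      T (fun i => (z i : ZMod p)) = (m : ZMod p) • (fun i => (z i : ZMod p)) := by
    intro z hz
    funext i
    rw [hTdef, Matrix.toLin'_apply, Pi.smul_apply, smul_eq_mul]
    have h1 : (Abar.mulVec fun i => (z i : ZMod p)) i = ((A.mulVec z i : ℤ) : ZMod p) := by
      simp only [Matrix.mulVec, dotProduct, hAbar, RingHom.mapMatrix_apply, Matrix.map_apply]
      push_cast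
      rfl
    rw [h1]
    have h2 := (ZMod.intCast_zmod_eq_zero_iff_dvd _ p).mpr (hz i)
    push_cast at h2
    exact sub_eq_zero.mp h2
  have hx' := key x hx
  have hy' := key y hy
  have hx0' : (fun i => (x i : ZMod p)) ≠ 0 := by
    obtain ⟨i, hi⟩ := hx0
    intro h
    have := congrFun h i
    simp only [Pi.zero_apply] at this
    exact hi ((ZMod.intCast_zmod_eq_zero_iff_dvd _ p).mp this)
  obtain ⟨a, ha⟩ := exists_smul_eq_of_eigen T n hn' hT (m : ZMod p) hm hm1 htrT hdim hnp hx' hy' hx0'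
  obtain ⟨a', rfl⟩ := ZMod.intCast_surjective a
  refine ⟨a', fun i => ?_⟩
  have := congrFun ha i
  simp only [Pi.smul_apply, smul_eq_mul] at this
  rw [← ZMod.intCast_zmod_eq_zero_iff_dvd]
  push_cast
  rw [this, sub_self]

end Fermat.Agent.S14.UDir99
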