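/-
S14 / K5 (UDIR), helper99.  Number field part: Galois action on units modulo torsion, the full
logarithmic map, and the trace formula  `tr (σ | E/μ) + 1 = #{w | σ⁻¹ • w = w}`.
-/
import Mathlib
import Fermat.Agent.S14.UDir99.IntMat

set_option autoImplicit false
set_option linter.unusedSectionVars false
set_option linter.unusedVariables false
set_option maxSynthPendingDepth 3

namespace Fermat.Agent.S14.UDir99

open NumberField NumberField.Units NumberField.InfinitePlace Module Finset
open NumberField.Units.dirichletUnitTheorem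

variable {K : Type*} [Field K] [NumberField K]

/-! ### Galois action on units -/

/-- the action of a field automorphism on the units of the ring of integers. -/
noncomputable def unitsMap (τ : K ≃ₐ[ℚ] K) : (𝓞 K)ˣ →* (𝓞 K)ˣ :=
  Units.map ((RingOfIntegers.mapRingEquiv τ.toRingEquiv : 𝓞 K ≃+* 𝓞 K) : 𝓞 K →* 𝓞 K)

@[simp] theorem coe_unitsMap (τ : K ≃ₐ[ℚ] K) (u : (𝓞 K)ˣ) :
    (((unitsMap τ u : (𝓞 K)ˣ) : 𝓞 K) : K) = τ ((u : 𝓞 K) : K) := rfl

theorem unitsMap_one (u : (𝓞 K)ˣ) : unitsMap (1 : K ≃ₐ[ℚ] K) u = u := by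
  apply Units.ext; apply RingOfIntegers.ext; simp

theorem unitsMap_mul (σ τ : K ≃ₐ[ℚ] K) (u : (𝓞 K)ˣ) :
    unitsMap (σ * τ) u = unitsMap σ (unitsMap τ u) := by
  apply Units.ext; apply RingOfIntegers.ext; simp [AlgEquiv.mul_apply]

theorem torsion_le_comap (τ : K ≃ₐ[ℚ] K) : torsion K ≤ (torsion K).comap (unitsMap τ) := by
  intro x hx
  rw [Subgroup.mem_comap]
  rw [torsion, CommGroup.mem_torsion] at hx ⊢
  exact (unitsMap τ).isOfFinOrder hx

/-- the quotient `E / μ` as a `ℤ`-module. -/
local notation "UQ " K => Additive ((𝓞 K)ˣ ⧸ torsion K)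

/-- class of a unit in `E / μ`. -/
def cls (u : (𝓞 K)ˣ) : (UQ K) := Additive.ofMul (QuotientGroup.mk u)

theorem cls_surjective : Function.Surjective (cls : (𝓞 K)ˣ → (UQ K)) := by
  intro x
  obtain ⟨u, hu⟩ := QuotientGroup.mk_surjective (Additive.toMul x)
  exact ⟨u, by rw [cls, hu]; rfl⟩

theorem cls_mul (u v : (𝓞 K)ˣ) : cls (u * v) = cls u + cls v := rfl

theorem cls_zpow (u : (𝓞 K)ˣ) (a : ℤ) : cls (u ^ a) = a • cls u := rfl

theorem cls_pow (u : (𝓞 K)ˣ) (a : ℕ) : cls (u ^ a) = a • cls u := rfl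

theorem cls_eq_zero_iff (u : (𝓞 K)ˣ) : cls u = 0 ↔ u ∈ torsion K := by
  rw [cls, ofMul_eq_zero, QuotientGroup.eq_one_iff]

/-- Galois action on `E / μ`. -/
noncomputable def galQ (τ : K ≃ₐ[ℚ] K) : (UQ K) →ₗ[ℤ] (UQ K) :=
  (MonoidHom.toAdditive (QuotientGroup.map (torsion K) (torsion K) (unitsMap τ)
    (torsion_le_comap τ))).toIntLinearMap

theorem galQ_cls (τ : K ≃ₐ[ℚ] K) (u : (𝓞 K)ˣ) : galQ τ (cls u) = cls (unitsMap τ u) := rfl

theorem galQ_one : galQ (1 : K ≃ₐ[ℚ] K) = 1 := by
  apply LinearMap.ext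
  intro x
  obtain ⟨u, rfl⟩ := cls_surjective x
  rw [galQ_cls, unitsMap_one]; rfl

theorem galQ_mul (σ τ : K ≃ₐ[ℚ] K) : galQ (σ * τ) = galQ σ * galQ τ := by
  apply LinearMap.ext
  intro x
  obtain ⟨u, rfl⟩ := cls_surjective x
  rw [galQ_cls, unitsMap_mul, Module.End.mul_apply, galQ_cls, galQ_cls]

theorem galQ_pow (σ : K ≃ₐ[ℚ] K) (i : ℕ) : galQ (σ ^ i) = galQ σ ^ i := by
  induction i with
  | zero => rw [pow_zero, pow_zero, galQ_one]
  | succ k ih => rw [pow_succ, pow_succ, galQ_mul, ih]

/-! ### The full logarithmic map -/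

/-- `w ↦ mult w * log (w u)`, on all infinite places. -/
noncomputable def logFull (u : (𝓞 K)ˣ) : InfinitePlace K → ℝ :=
  fun w => mult w * Real.log (w ((u : 𝓞 K) : K))

theorem logFull_mul (u v : (𝓞 K)ˣ) : logFull (u * v) = logFull u + logFull v := by
  funext w
  simp only [logFull, Pi.add_apply, Units.val_mul, map_mul]
  rw [Real.log_mul (pos_at_place u w).ne' (pos_at_place v w).ne', mul_add]

theorem logFull_one : logFull (1 : (𝓞 K)ˣ) = 0 := by
  funext w
  simp [logFull]

/-- `logFull` as a monoid hom to the multiplicative version of the function space. -/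
noncomputable def logFullHom : Additive (𝓞 K)ˣ →+ (InfinitePlace K → ℝ) where
  toFun x := logFull (Additive.toMul x)
  map_zero' := logFull_one
  map_add' x y := logFull_mul _ _

theorem logFull_of_mem_torsion {u : (𝓞 K)ˣ} (hu : u ∈ torsion K) : logFull u = 0 := by
  funext w
  have := (mem_torsion K).mp hu w
  simp only [logFull, Pi.zero_apply]
  rw [show w ((u : 𝓞 K) : K) = 1 from this, Real.log_one, mul_zero]

theorem logFull_eq_zero_iff {u : (𝓞 K)ˣ} : logFull u = 0 ↔ u ∈ torsion K := by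
  refine ⟨fun h => ?_, logFull_of_mem_torsion⟩
  rw [mem_torsion]
  intro w
  have := congrFun h w
  simp only [logFull, Pi.zero_apply] at this
  exact mult_log_place_eq_zero.mp this

theorem sum_logFull (u : (𝓞 K)ˣ) : ∑ w, logFull u w = 0 := sum_mult_mul_log u

theorem mult_smul (τ : K ≃ₐ[ℚ] K) (w : InfinitePlace K) : mult (τ • w) = mult w := by
  rw [mult, mult]
  have h : (τ • w).IsReal ↔ w.IsReal := isReal_smul_iff
  by_cases hw : w.IsReal
  · rw [if_pos hw, if_pos (h.mpr hw)]
  · rw [if_neg hw, if_neg (fun h' => hw (h.mp h'))]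

theorem logFull_unitsMap (τ : K ≃ₐ[ℚ] K) (u : (𝓞 K)ˣ) (w : InfinitePlace K) :
    logFull (unitsMap τ u) w = logFull u (τ⁻¹ • w) := by
  simp only [logFull, mult_smul, coe_unitsMap, InfinitePlace.smul_apply]
  rfl

/-- `logFull` factors through `E/μ`; in coordinates w.r.t. the fundamental system. -/
theorem logFull_eq_sum (u : (𝓞 K)ˣ) :
    logFull u = ∑ i, ((basisModTorsion K).repr (cls u) i : ℝ) • logFull (fundSystem K i) := by
  obtain ⟨⟨ζ, e⟩, hu, -⟩ := exist_unique_eq_mul_prod K u
  have he : e = (basisModTorsion K).repr (cls u) := fun_eq_repr K ζ.2 hu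
  have h1 : logFull u = logFullHom (Additive.ofMul u) := rfl
  rw [h1]
  conv_lhs => rw [hu]
  rw [ofMul_mul, map_add, ofMul_prod, map_sum]
  have h2 : logFullHom (Additive.ofMul (ζ : (𝓞 K)ˣ)) = 0 := logFull_of_mem_torsion ζ.2
  rw [h2, zero_add]
  refine Finset.sum_congr rfl fun i _ => ?_
  rw [ofMul_zpow, map_zsmul, ← he]
  rw [← Int.cast_smul_eq_zsmul ℝ]
  rfl

/-! ### Linear independence and the basis of `ℝ^W` -/

theorem linearIndependent_logFull_fundSystem :
    LinearIndependent ℝ (fun i => logFull (fundSystem K i)) := by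
  classical
  let ρ : (InfinitePlace K → ℝ) →ₗ[ℝ] dirichletUnitTheorem.logSpace K :=
    LinearMap.funLeft ℝ ℝ Subtype.val
  apply LinearIndependent.of_comp ρ
  have : (ρ ∘ fun i => logFull (fundSystem K i))
      = ⇑(Basis.ofZLatticeBasis ℝ (unitLattice K) (basisUnitLattice K)) := by
    funext i
    rw [Basis.ofZLatticeBasis_apply, ← logEmbedding_fundSystem]
    rfl
  rw [this]
  exact (Basis.ofZLatticeBasis ℝ (unitLattice K) (basisUnitLattice K)).linearIndependent

/-- the family `1, logFull ε₁, …, logFull ε_r`. -/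
noncomputable def fullFamily (K : Type*) [Field K] [NumberField K] :
    Option (Fin (rank K)) → (InfinitePlace K → ℝ) :=
  fun o => o.casesOn' (fun _ => (1 : ℝ)) (fun i => logFull (fundSystem K i))

theorem linearIndependent_fullFamily : LinearIndependent ℝ (fullFamily K) := by
  classical
  unfold fullFamily
  rw [linearIndependent_option']
  refine ⟨linearIndependent_logFull_fundSystem, fun h => ?_⟩
  -- the "sum of coordinates" functional vanishes on the span but not on the constant function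
  let φ : (InfinitePlace K → ℝ) →ₗ[ℝ] ℝ := ∑ w, LinearMap.proj w
  have hφ : ∀ f, φ f = ∑ w, f w := fun f => by simp [φ]
  have hle : Submodule.span ℝ (Set.range fun i => logFull (fundSystem K i)) ≤ LinearMap.ker φ := by
    rw [Submodule.span_le]
    rintro _ ⟨i, rfl⟩
    rw [SetLike.mem_coe, LinearMap.mem_ker, hφ]
    exact sum_logFull _
  have h1 := hle h
  rw [LinearMap.mem_ker, hφ] at h1
  simp only [Finset.sum_const, Finset.card_univ, nsmul_eq_mul, mul_one] at h1
  have : (Fintype.card (InfinitePlace K) : ℝ) ≠ 0 :=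
    Nat.cast_ne_zero.mpr Fintype.card_ne_zero
  exact this h1

theorem card_option_rank :
    Fintype.card (Option (Fin (rank K))) = finrank ℝ (InfinitePlace K → ℝ) := by
  rw [Fintype.card_option, Fintype.card_fin, Module.finrank_fintype_fun_eq_card, rank]
  have : 0 < Fintype.card (InfinitePlace K) := Fintype.card_pos
  omega

/-- the basis `1, logFull ε₁, …, logFull ε_r` of `ℝ^W`. -/
noncomputable def fullBasis (K : Type*) [Field K] [NumberField K] :
    Basis (Option (Fin (rank K))) ℝ (InfinitePlace K → ℝ) :=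
  basisOfLinearIndependentOfCardEqFinrank linearIndependent_fullFamily card_option_rank

theorem fullBasis_none : fullBasis K none = fun _ => (1 : ℝ) := by
  rw [fullBasis, coe_basisOfLinearIndependentOfCardEqFinrank]; rfl

theorem fullBasis_some (i : Fin (rank K)) : fullBasis K (some i) = logFull (fundSystem K i) := by
  rw [fullBasis, coe_basisOfLinearIndependentOfCardEqFinrank]; rfl

/-! ### The permutation map and the trace formula -/

/-- the permutation action of `τ` on `ℝ^W`. -/
noncomputable def permMap (τ : K ≃ₐ[ℚ] K) : (InfinitePlace K → ℝ) →ₗ[ℝ] (InfinitePlace K → ℝ) :=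
  LinearMap.funLeft ℝ ℝ (fun w => τ⁻¹ • w)

theorem permMap_apply (τ : K ≃ₐ[ℚ] K) (f : InfinitePlace K → ℝ) (w : InfinitePlace K) :
    permMap τ f w = f (τ⁻¹ • w) := rfl

theorem permMap_logFull (τ : K ≃ₐ[ℚ] K) (u : (𝓞 K)ˣ) :
    permMap τ (logFull u) = logFull (unitsMap τ u) := by
  funext w
  rw [permMap_apply, logFull_unitsMap]

/-- the matrix of `galQ τ` in the basis of fundamental units. -/
noncomputable def galMat (τ : K ≃ₐ[ℚ] K) : Matrix (Fin (rank K)) (Fin (rank K)) ℤ :=
  LinearMap.toMatrix (basisModTorsion K) (basisModTorsion K) (galQ τ)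

theorem galMat_apply (τ : K ≃ₐ[ℚ] K) (i j : Fin (rank K)) :
    galMat τ i j = (basisModTorsion K).repr (cls (unitsMap τ (fundSystem K j))) i := by
  rw [galMat, LinearMap.toMatrix_apply, ← fundSystem_mk]
  rfl

theorem permMap_fullBasis_some (τ : K ≃ₐ[ℚ] K) (j : Fin (rank K)) :
    permMap τ (fullBasis K (some j)) = ∑ i, (galMat τ i j : ℝ) • fullBasis K (some i) := by
  rw [fullBasis_some, permMap_logFull, logFull_eq_sum]
  refine Finset.sum_congr rfl fun i _ => ?_
  rw [fullBasis_some, galMat_apply]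

theorem permMap_fullBasis_none (τ : K ≃ₐ[ℚ] K) :
    permMap τ (fullBasis K none) = fullBasis K none := by
  rw [fullBasis_none]; rfl

theorem trace_permMap_eq (τ : K ≃ₐ[ℚ] K) :
    LinearMap.trace ℝ _ (permMap τ) = ((galMat τ).trace : ℝ) + 1 := by
  classical
  rw [LinearMap.trace_eq_matrix_trace ℝ (fullBasis K), Matrix.trace, Fintype.sum_option]
  simp only [Matrix.diag_apply, LinearMap.toMatrix_apply]
  rw [permMap_fullBasis_none, Basis.repr_self, Finsupp.single_eq_same, add_comm]
  congr 1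
  rw [Matrix.trace, Int.cast_sum]
  refine Finset.sum_congr rfl fun j _ => ?_
  rw [permMap_fullBasis_some, map_sum, Finsupp.finsetSum_apply]
  simp only [map_smul, Basis.repr_self, Finsupp.smul_apply, smul_eq_mul, Matrix.diag_apply]
  rw [Finset.sum_eq_single j]
  · simp
  · intro i _ hij
    rw [Finsupp.single_apply, if_neg, mul_zero]
    intro h; exact hij (Option.some.inj h)
  · intro h; exact absurd (Finset.mem_univ j) h

theorem trace_permMap_eq_card (τ : K ≃ₐ[ℚ] K) [DecidableEq (InfinitePlace K)] :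
    LinearMap.trace ℝ _ (permMap τ) =
      ((Finset.univ.filter fun w : InfinitePlace K => τ⁻¹ • w = w).card : ℝ) := by
  rw [LinearMap.trace_eq_matrix_trace ℝ (Pi.basisFun ℝ (InfinitePlace K)), Matrix.trace]
  simp only [Matrix.diag_apply, LinearMap.toMatrix_apply, Pi.basisFun_apply, Pi.basisFun_repr,
    permMap_apply]
  rw [Finset.card_filter, Nat.cast_sum]
  refine Finset.sum_congr rfl fun w _ => ?_
  rw [Pi.single_apply]
  split_ifs <;> simp

/-- **Trace formula**: `tr (τ | E/μ) + 1 = #{w | τ⁻¹ • w = w}`. -/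
theorem trace_galMat_add_one (τ : K ≃ₐ[ℚ] K) [DecidableEq (InfinitePlace K)] :
    (galMat τ).trace + 1 = ((Finset.univ.filter fun w : InfinitePlace K => τ⁻¹ • w = w).card : ℤ) := by
  have h := (trace_permMap_eq τ).symm.trans (trace_permMap_eq_card τ)
  exact_mod_cast h

end Fermat.Agent.S14.UDir99
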