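/-
S14 / K5 (UDIR), helper99.  Number field level main theorem: if `σ` generates a group acting
freely and transitively on the infinite places (modulo a subgroup acting trivially), then two
units in the same `m`-eigenspace of `σ` on `(E/μ)/p` are proportional.
-/
import Mathlib
import Fermat.Agent.S14.UDir99.NF

set_option autoImplicit false
set_option linter.unusedSectionVars false
set_option linter.unusedVariables false
set_option maxSynthPendingDepth 3

namespace Fermat.Agent.S14.UDir99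

open NumberField NumberField.Units NumberField.InfinitePlace Module Finset

variable {K : Type*} [Field K] [NumberField K]

local notation "UQ " K => Additive ((𝓞 K)ˣ ⧸ torsion K)

theorem cls_inv (u : (𝓞 K)ˣ) : cls u⁻¹ = - cls u := rfl

theorem cls_eq_iff (u v : (𝓞 K)ˣ) : cls u = cls v ↔ ∃ t ∈ torsion K, u = t * v := by
  constructor
  · intro h
    refine ⟨u * v⁻¹, ?_, by rw [inv_mul_cancel_right]⟩
    rw [← cls_eq_zero_iff, cls_mul, cls_inv, h, add_neg_cancel]
  · rintro ⟨t, ht, rfl⟩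
    rw [cls_mul, (cls_eq_zero_iff t).mpr ht, zero_add]

theorem logFull_inv (u : (𝓞 K)ˣ) : logFull u⁻¹ = - logFull u := by
  have h := logFull_mul u u⁻¹
  rw [mul_inv_cancel, logFull_one] at h
  exact (neg_eq_of_add_eq_zero_right h.symm).symm

/-- if `τ` acts trivially on the infinite places then it acts trivially on `E/μ`. -/
theorem galQ_eq_one_of_fix (τ : K ≃ₐ[ℚ] K) (h : ∀ w : InfinitePlace K, τ⁻¹ • w = w) :
    galQ τ = 1 := by
  apply LinearMap.ext
  intro x
  obtain ⟨u, rfl⟩ := cls_surjective x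
  rw [galQ_cls, Module.End.one_apply]
  have h1 : logFull (unitsMap τ u * u⁻¹) = 0 := by
    rw [logFull_mul, logFull_inv]
    funext w
    have h2 := logFull_unitsMap τ u w
    rw [h w] at h2
    rw [Pi.add_apply, h2, Pi.neg_apply, Pi.zero_apply, add_neg_cancel]
  have h3 := (cls_eq_zero_iff _).mpr (logFull_eq_zero_iff.mp h1)
  rw [cls_mul, cls_inv, ← sub_eq_add_neg, sub_eq_zero] at h3
  exact h3

theorem rank_add_one : rank K + 1 = Fintype.card (InfinitePlace K) := by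
  have : 0 < Fintype.card (InfinitePlace K) := Fintype.card_pos
  rw [rank]; omega

/-- **Main theorem, module form.** -/
theorem main_cls (σ : K ≃ₐ[ℚ] K) (n : ℕ) (hcard : Fintype.card (InfinitePlace K) = n)
    (hfree : ∀ i, 0 < i → i < n → ∀ w : InfinitePlace K, (σ ^ i)⁻¹ • w ≠ w)
    (hfix : ∀ w : InfinitePlace K, (σ ^ n)⁻¹ • w = w)
    {p : ℕ} [Fact p.Prime] (hnp : n < p)
    (m : ℤ) (hm : (m : ZMod p) ^ n = 1) (hm1 : (m : ZMod p) ≠ 1)
    (x y : UQ K) (hx : ∃ z : UQ K, galQ σ x = m • x + (p : ℤ) • z)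
    (hy : ∃ z : UQ K, galQ σ y = m • y + (p : ℤ) • z)
    (hx0 : ¬ ∃ z : UQ K, x = (p : ℤ) • z) :
    ∃ (a : ℤ) (z : UQ K), y = a • x + (p : ℤ) • z := by
  classical
  set b := basisModTorsion K with hb
  set A := galMat σ with hAdef
  have hApow : ∀ i : ℕ, A ^ i = galMat (σ ^ i) := by
    intro i
    rw [hAdef, galMat, galMat, LinearMap.toMatrix_pow, galQ_pow]
  have hA : A ^ n = 1 := by
    rw [hApow, galMat, galQ_eq_one_of_fix _ hfix, LinearMap.toMatrix_one]
  have htr : ∀ i, 0 < i → i < n → (A ^ i).trace = -1 := by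
    intro i h0 hi
    rw [hApow]
    have h1 := trace_galMat_add_one (σ ^ i)
    have h2 : (Finset.univ.filter fun w : InfinitePlace K => (σ ^ i)⁻¹ • w = w) = ∅ := by
      rw [Finset.filter_eq_empty_iff]
      intro w _
      exact hfree i h0 hi w
    rw [h2, Finset.card_empty] at h1
    push_cast at h1
    linarith
  have hn : rank K + 1 = n := by rw [rank_add_one, hcard]
  have hn0 : 0 < n := by omega
  have hnp' : ¬ p ∣ n := fun h => absurd (Nat.le_of_dvd hn0 h) (by omega)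
  have key : ∀ x : UQ K, (∃ z : UQ K, galQ σ x = m • x + (p : ℤ) • z) →
      ∀ i, (p : ℤ) ∣ (A.mulVec (b.repr x)) i - m * b.repr x i := by
    rintro x ⟨z, hz⟩ i
    have h1 := LinearMap.toMatrix_mulVec_repr b b (galQ σ) x
    have h2 : A.mulVec (b.repr x) = b.repr (galQ σ x) := h1
    rw [h2, hz]
    refine ⟨b.repr z i, ?_⟩
    simp only [map_add, map_smul, Finsupp.coe_add, Finsupp.coe_smul, Pi.add_apply, Pi.smul_apply,
      smul_eq_mul]
    ring
  have hx' := key x hx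
  have hy' := key y hy
  have hx0' : ∃ i, ¬ (p : ℤ) ∣ b.repr x i := by
    by_contra hcon
    rw [not_exists] at hcon
    have hall : ∀ i, (p : ℤ) ∣ b.repr x i := fun i => not_not.mp (hcon i)
    choose f hf using hall
    apply hx0
    refine ⟨∑ i, f i • b i, ?_⟩
    rw [Finset.smul_sum]
    conv_lhs => rw [← b.sum_repr x]
    refine Finset.sum_congr rfl fun i _ => ?_
    rw [hf i, mul_smul]
  obtain ⟨a, ha⟩ := exists_int_smul_eq_mod A n hn hnp.le hnp' hA htr m hm hm1 (b.repr x) (b.repr y)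
    hx' hy' hx0'
  choose g hg using ha
  refine ⟨a, ∑ i, g i • b i, ?_⟩
  rw [Finset.smul_sum]
  have h1 : y - a • x = ∑ i, (p : ℤ) • g i • b i := by
    conv_lhs => rw [← b.sum_repr y, ← b.sum_repr x]
    rw [Finset.smul_sum, ← Finset.sum_sub_distrib]
    refine Finset.sum_congr rfl fun i _ => ?_
    rw [← mul_smul, ← mul_smul, ← sub_smul, hg i]
  rw [← h1]
  abel

/-- **Main theorem, unit form.** -/
theorem main_units (σ : K ≃ₐ[ℚ] K) (n : ℕ) (hcard : Fintype.card (InfinitePlace K) = n)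
    (hfree : ∀ i, 0 < i → i < n → ∀ w : InfinitePlace K, (σ ^ i)⁻¹ • w ≠ w)
    (hfix : ∀ w : InfinitePlace K, (σ ^ n)⁻¹ • w = w)
    {p : ℕ} [Fact p.Prime] (hnp : n < p)
    (m : ℤ) (hm : (m : ZMod p) ^ n = 1) (hm1 : (m : ZMod p) ≠ 1)
    (u v : (𝓞 K)ˣ)
    (hu : ∃ w t : (𝓞 K)ˣ, t ∈ torsion K ∧ unitsMap σ u = u ^ m * t * w ^ p)
    (hv : ∃ w t : (𝓞 K)ˣ, t ∈ torsion K ∧ unitsMap σ v = v ^ m * t * w ^ p)
    (hu0 : ¬ ∃ w t : (𝓞 K)ˣ, t ∈ torsion K ∧ u = t * w ^ p) :
    ∃ (a : ℤ) (w t : (𝓞 K)ˣ), t ∈ torsion K ∧ v = u ^ a * t * w ^ p := by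
  have key : ∀ u : (𝓞 K)ˣ, (∃ w t : (𝓞 K)ˣ, t ∈ torsion K ∧ unitsMap σ u = u ^ m * t * w ^ p) →
      ∃ z : UQ K, galQ σ (cls u) = m • cls u + (p : ℤ) • z := by
    rintro u ⟨w, t, ht, h⟩
    refine ⟨cls w, ?_⟩
    rw [galQ_cls, h, cls_mul, cls_mul, cls_zpow, (cls_eq_zero_iff t).mpr ht, add_zero,
      ← zpow_natCast, cls_zpow]
  have hx0 : ¬ ∃ z : UQ K, cls u = (p : ℤ) • z := by
    rintro ⟨z, hz⟩
    obtain ⟨w, rfl⟩ := cls_surjective z
    rw [← cls_zpow, zpow_natCast, cls_eq_iff] at hz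
    obtain ⟨t, ht, h⟩ := hz
    exact hu0 ⟨w, t, ht, h⟩
  obtain ⟨a, z, hz⟩ := main_cls σ n hcard hfree hfix hnp m hm hm1 (cls u) (cls v) (key u hu)
    (key v hv) hx0
  obtain ⟨w, rfl⟩ := cls_surjective z
  rw [← cls_zpow, ← cls_zpow, ← cls_mul, zpow_natCast, cls_eq_iff] at hz
  obtain ⟨t, ht, h⟩ := hz
  refine ⟨a, w, t, ht, ?_⟩
  rw [h, mul_comm (u ^ a) t, mul_assoc]

end Fermat.Agent.S14.UDir99
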