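/-
S14 / K5 (UDIR), helper99.  The cyclotomic case: eigenspaces of `E/E^p` for even characters
`ω^k ≠ 1` are at most one-dimensional.
-/
import Mathlib
import Fermat.Agent.S14.UDir99.Main
import Fermat.Agent.S14.UDir99.CycloPlaces

set_option autoImplicit false
set_option linter.unusedSectionVars false
set_option linter.unusedVariables false
set_option linter.style.haveILetI false
set_option maxSynthPendingDepth 3

namespace Fermat.Agent.S14.UDir99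

open NumberField NumberField.Units NumberField.InfinitePlace

/-! ### The eigen-subgroup -/

section General

variable {K : Type*} [Field K] [NumberField K]

/-- the subgroup of units `x` with `σ x = x ^ e * y ^ p` for some unit `y`. -/
noncomputable def eigSub (σ : K ≃ₐ[ℚ] K) (e p : ℕ) : Subgroup (𝓞 K)ˣ :=
  (powMonoidHom p : (𝓞 K)ˣ →* (𝓞 K)ˣ).range.comap (unitsMap σ * (powMonoidHom e)⁻¹)

theorem mem_eigSub (σ : K ≃ₐ[ℚ] K) (e p : ℕ) (x : (𝓞 K)ˣ) :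
    x ∈ eigSub σ e p ↔ ∃ y : (𝓞 K)ˣ, unitsMap σ x = x ^ e * y ^ p := by
  rw [eigSub, Subgroup.mem_comap, MonoidHom.mem_range]
  simp only [MonoidHom.mul_apply, MonoidHom.inv_apply, powMonoidHom_apply]
  constructor
  · rintro ⟨y, hy⟩
    exact ⟨y, by rw [hy, mul_comm (unitsMap σ x), mul_inv_cancel_left]⟩
  · rintro ⟨y, hy⟩
    exact ⟨y, by rw [hy, mul_comm (x ^ e), mul_inv_cancel_right]⟩

theorem pow_mem_eigSub (σ : K ≃ₐ[ℚ] K) (e p : ℕ) (w : (𝓞 K)ˣ) : w ^ p ∈ eigSub σ e p := by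
  rw [eigSub, Subgroup.mem_comap, map_pow]
  exact ⟨_, rfl⟩

end General

/-! ### The cyclotomic field -/

variable {p : ℕ} [Fact p.Prime] {K : Type*} [Field K] [NumberField K]
  [IsCyclotomicExtension {p} ℚ K]

/-- `ζ` as a unit of `𝓞 K`. -/
noncomputable def zetaUnit {ζ : K} (hζ : IsPrimitiveRoot ζ p) : (𝓞 K)ˣ :=
  haveI : NeZero p := ⟨(Fact.out : p.Prime).ne_zero⟩
  (hζ.toInteger_isPrimitiveRoot.isUnit (Fact.out : p.Prime).ne_zero).unit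

theorem coe_zetaUnit {ζ : K} (hζ : IsPrimitiveRoot ζ p) :
    (((zetaUnit hζ : (𝓞 K)ˣ) : 𝓞 K) : K) = ζ := by
  haveI : NeZero p := ⟨(Fact.out : p.Prime).ne_zero⟩
  rw [zetaUnit, IsUnit.unit_spec]
  exact IsPrimitiveRoot.coe_toInteger hζ

theorem units_ext_coe {x y : (𝓞 K)ˣ} (h : ((x : 𝓞 K) : K) = ((y : 𝓞 K) : K)) : x = y :=
  Units.ext (RingOfIntegers.ext h)

theorem zetaUnit_pow_eq_one_iff {ζ : K} (hζ : IsPrimitiveRoot ζ p) (r : ℕ) :
    zetaUnit hζ ^ r = 1 ↔ ζ ^ r = 1 := by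
  constructor
  · intro h
    have := congrArg (fun x : (𝓞 K)ˣ => ((x : 𝓞 K) : K)) h
    simpa [coe_zetaUnit] using this
  · intro h
    apply units_ext_coe
    simp [coe_zetaUnit, h]

/-- **Torsion bookkeeping.** -/
theorem zeta_pow_eq_one_of_eigen (hp : p ≠ 2) {ζ : K} (hζ : IsPrimitiveRoot ζ p) (c k b : ℕ)
    (hc : orderOf (c : ZMod p) = p - 1) (hk : Even k) (y : K)
    (h : ζ ^ (b * c) = ζ ^ (b * c ^ k) * y ^ p) : ζ ^ b = 1 := by
  have hp' := (Fact.out : p.Prime)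
  haveI : NeZero p := ⟨hp'.ne_zero⟩
  have hodd : Odd p := hp'.odd_of_ne_two hp
  have h2 : 2 < p := lt_of_le_of_ne hp'.two_le (Ne.symm hp)
  have hζ0 : ζ ≠ 0 := hζ.ne_zero hp'.ne_zero
  -- `(y ^ p) ^ p = 1`
  have hyp : (y ^ p) ^ p = 1 := by
    have e1 : ∀ a : ℕ, (ζ ^ a) ^ p = 1 := fun a => by
      rw [← pow_mul, mul_comm, pow_mul, hζ.pow_eq_one, one_pow]
    have h1 := congrArg (· ^ p) h
    simp only [mul_pow] at h1
    rw [e1, e1, one_mul] at h1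
    exact h1.symm
  have hfin : IsOfFinOrder y := by
    rw [isOfFinOrder_iff_pow_eq_one]
    exact ⟨p * p, Nat.mul_pos hp'.pos hp'.pos, by rw [pow_mul]; exact hyp⟩
  obtain ⟨r, -, hr⟩ := hζ.exists_pow_or_neg_mul_pow_of_isOfFinOrder hodd hfin
  have hy1 : y ^ p = 1 := by
    rcases hr with hr | hr
    · rw [hr, ← pow_mul, mul_comm, pow_mul, hζ.pow_eq_one, one_pow]
    · exfalso
      have h3 : y ^ p = -1 := by
        rw [hr, hodd.neg_pow, ← pow_mul, mul_comm, pow_mul, hζ.pow_eq_one, one_pow]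
      rw [h3, hodd.neg_one_pow] at hyp
      have : (2 : K) = 0 := by linear_combination -hyp
      exact two_ne_zero this
  rw [hy1, mul_one] at h
  -- now `ζ ^ (b c) = ζ ^ (b c^k)`
  by_contra hb
  have hb' : ((b : ℕ) : ZMod p) ≠ 0 := by
    intro h0
    rw [ZMod.natCast_eq_zero_iff] at h0
    obtain ⟨e, rfl⟩ := h0
    exact hb (by rw [pow_mul, hζ.pow_eq_one, one_pow])
  have h3 : ζ ^ ((b * c : ℕ) : ℤ) = ζ ^ ((b * c ^ k : ℕ) : ℤ) := by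
    rw [zpow_natCast, zpow_natCast, h]
  have h4 : ζ ^ (((b * c : ℕ) : ℤ) - ((b * c ^ k : ℕ) : ℤ)) = 1 := by
    rw [zpow_sub₀ hζ0, h3, div_self (zpow_ne_zero _ hζ0)]
  rw [hζ.zpow_eq_one_iff_dvd, ← ZMod.intCast_zmod_eq_zero_iff_dvd] at h4
  push_cast at h4
  have h5 : (c : ZMod p) = (c : ZMod p) ^ k := by
    have : (b : ZMod p) * ((c : ZMod p) - (c : ZMod p) ^ k) = 0 := by linear_combination h4
    rcases mul_eq_zero.mp this with h6 | h6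
    · exact absurd h6 hb'
    · exact sub_eq_zero.mp h6
  obtain ⟨j, rfl⟩ := hk
  -- raise to the power `(p-1)/2`
  obtain ⟨n, hn⟩ : ∃ n, p - 1 = 2 * n := by
    obtain ⟨q, hq⟩ := hodd
    exact ⟨q, by omega⟩
  have hcp : (c : ZMod p) ^ (p - 1) = 1 := by rw [← hc]; exact pow_orderOf_eq_one _
  have h6 : (c : ZMod p) ^ n = 1 := by
    have : (c : ZMod p) ^ n = ((c : ZMod p) ^ (j + j)) ^ n := by rw [← h5]
    rw [this, ← pow_mul]
    have : (j + j) * n = (p - 1) * j := by rw [hn]; ring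
    rw [this, pow_mul, hcp, one_pow]
  have h7 := orderOf_dvd_of_pow_eq_one h6
  rw [hc, hn] at h7
  have hn0 : 0 < n := by omega
  have := Nat.le_of_dvd hn0 h7
  omega

/-- torsion units of `ℚ(ζ_p)` are `ζ ^ r` times a `p`-th power. -/
theorem torsion_eq_zeta_pow_mul (hp : p ≠ 2) {ζ : K} (hζ : IsPrimitiveRoot ζ p) (t : (𝓞 K)ˣ)
    (ht : t ∈ torsion K) : ∃ (r : ℕ) (s : (𝓞 K)ˣ), t = zetaUnit hζ ^ r * s ^ p := by
  have hp' := (Fact.out : p.Prime)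
  haveI : NeZero p := ⟨hp'.ne_zero⟩
  have hodd : Odd p := hp'.odd_of_ne_two hp
  have hfin : IsOfFinOrder (((t : 𝓞 K) : K)) := by
    rw [torsion, CommGroup.mem_torsion] at ht
    have := ((algebraMap (𝓞 K) K : 𝓞 K →* K).comp (Units.coeHom (𝓞 K))).isOfFinOrder ht
    exact this
  obtain ⟨r, -, hr⟩ := hζ.exists_pow_or_neg_mul_pow_of_isOfFinOrder hodd hfin
  rcases hr with hr | hr
  · refine ⟨r, 1, units_ext_coe ?_⟩
    simp [coe_zetaUnit, hr]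
  · refine ⟨r, -1, units_ext_coe ?_⟩
    simp [coe_zetaUnit, hr, hodd.neg_one_pow]

theorem unitsMap_zetaUnit {ζ : K} (hζ : IsPrimitiveRoot ζ p) (σ : K ≃ₐ[ℚ] K) (c : ℕ)
    (hσ : σ ζ = ζ ^ c) : unitsMap σ (zetaUnit hζ) = zetaUnit hζ ^ c := by
  apply units_ext_coe
  rw [coe_unitsMap, coe_zetaUnit, hσ]
  simp [coe_zetaUnit]

/-- if `ζ ^ r` lies in the `c ^ k`-eigen subgroup (with `k` even) then `ζ ^ r = 1`. -/
theorem zetaUnit_pow_eq_one_of_mem (hp : p ≠ 2) {ζ : K} (hζ : IsPrimitiveRoot ζ p)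
    (σ : K ≃ₐ[ℚ] K) (c k : ℕ) (hσ : σ ζ = ζ ^ c) (hc : orderOf (c : ZMod p) = p - 1)
    (hk : Even k) (r : ℕ) (h : zetaUnit hζ ^ r ∈ eigSub σ (c ^ k) p) : zetaUnit hζ ^ r = 1 := by
  rw [mem_eigSub] at h
  obtain ⟨y, hy⟩ := h
  rw [zetaUnit_pow_eq_one_iff]
  apply zeta_pow_eq_one_of_eigen hp hζ c k r hc hk ((y : 𝓞 K) : K)
  have h1 := congrArg (fun x : (𝓞 K)ˣ => ((x : 𝓞 K) : K)) hy
  simp only [map_pow, unitsMap_zetaUnit hζ σ c hσ, Units.val_mul, Units.val_pow_eq_pow_val,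
    map_mul, coe_zetaUnit] at h1
  rw [pow_mul, pow_mul, ← h1, ← pow_mul, ← pow_mul, mul_comm]

/-- **UDIR, generator form.**  `σ ζ = ζ ^ c` with `c` a primitive root mod `p`; `k` even,
`(p - 1) ∤ k`.  Two units in the `c ^ k`-eigen subgroup for `σ`: if the first is not a `p`-th
power, the second is a power of the first times a `p`-th power. -/
theorem udir_gen (hp : p ≠ 2) {ζ : K} (hζ : IsPrimitiveRoot ζ p) (σ : K ≃ₐ[ℚ] K) (c : ℕ)
    (hσ : σ ζ = ζ ^ c) (hc : orderOf (c : ZMod p) = p - 1) (k : ℕ) (hk : Even k)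
    (hk' : ¬ (p - 1) ∣ k) (u v : (𝓞 K)ˣ)
    (hu : u ∈ eigSub σ (c ^ k) p) (hv : v ∈ eigSub σ (c ^ k) p)
    (hnp : ¬ ∃ w : (𝓞 K)ˣ, u = w ^ p) :
    ∃ (j : ℕ) (w : (𝓞 K)ˣ), v = u ^ j * w ^ p := by
  have hp' := (Fact.out : p.Prime)
  have hodd : Odd p := hp'.odd_of_ne_two hp
  have h2p : 2 < p := lt_of_le_of_ne hp'.two_le (Ne.symm hp)
  obtain ⟨n, hn⟩ : ∃ n, p - 1 = 2 * n := by
    obtain ⟨q, hq⟩ := hodd
    exact ⟨q, by omega⟩
  have hn0 : 0 < n := by omega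
  have hcard : Fintype.card (InfinitePlace K) = n := by
    rw [card_infinitePlace_cyclo hp, hn, Nat.mul_div_cancel_left _ (by norm_num : 0 < 2)]
  have hpow : ∀ i : ℕ, (σ ^ i) ζ = ζ ^ (c ^ i) := by
    intro i
    induction i with
    | zero => simp
    | succ i ih => rw [pow_succ, AlgEquiv.mul_apply, hσ, map_pow, ih, ← pow_mul, ← pow_succ]
  have hcp : (c : ZMod p) ^ (p - 1) = 1 := by rw [← hc]; exact pow_orderOf_eq_one _
  have hfix_iff : ∀ (i : ℕ) (w : InfinitePlace K),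
      (σ ^ i)⁻¹ • w = w ↔ ((c : ZMod p) ^ i = 1 ∨ (c : ZMod p) ^ i = -1) := by
    intro i w
    rw [smul_place_eq_iff hζ (σ ^ i) (c ^ i) (hpow i) w]
    push_cast
    rfl
  have hfree : ∀ i, 0 < i → i < n → ∀ w : InfinitePlace K, (σ ^ i)⁻¹ • w ≠ w := by
    intro i h0 hi w hw
    rw [hfix_iff] at hw
    have h1 : (c : ZMod p) ^ (2 * i) = 1 := by
      rw [mul_comm, pow_mul]
      rcases hw with h | h <;> rw [h] <;> simp
    have h2 := orderOf_dvd_of_pow_eq_one h1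
    rw [hc, hn] at h2
    have := Nat.le_of_dvd (by omega) h2
    omega
  have hfix : ∀ w : InfinitePlace K, (σ ^ n)⁻¹ • w = w := by
    intro w
    rw [hfix_iff]
    apply sq_eq_one_iff.mp
    rw [← pow_mul, mul_comm, ← hn, hcp]
  have hnp' : n < p := by omega
  set m : ℤ := ((c ^ k : ℕ) : ℤ) with hm_def
  have hm : (m : ZMod p) ^ n = 1 := by
    obtain ⟨j, rfl⟩ := hk
    rw [hm_def]
    push_cast
    rw [← pow_mul]
    have : (j + j) * n = (p - 1) * j := by rw [hn]; ring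
    rw [this, pow_mul, hcp, one_pow]
  have hm1 : (m : ZMod p) ≠ 1 := by
    rw [hm_def]
    push_cast
    intro h
    have := orderOf_dvd_of_pow_eq_one h
    rw [hc] at this
    exact hk' this
  have conv : ∀ x : (𝓞 K)ˣ, x ∈ eigSub σ (c ^ k) p →
      ∃ w t : (𝓞 K)ˣ, t ∈ torsion K ∧ unitsMap σ x = x ^ m * t * w ^ p := by
    intro x hx
    rw [mem_eigSub] at hx
    obtain ⟨y, hy⟩ := hx
    exact ⟨y, 1, one_mem _, by rw [hy, hm_def, zpow_natCast, mul_one]⟩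
  have hu0 : ¬ ∃ w t : (𝓞 K)ˣ, t ∈ torsion K ∧ u = t * w ^ p := by
    rintro ⟨w, t, ht, h⟩
    obtain ⟨r, s, rfl⟩ := torsion_eq_zeta_pow_mul hp hζ t ht
    have h1 : zetaUnit hζ ^ r = u * ((s * w) ^ p)⁻¹ := by
      rw [eq_mul_inv_iff_mul_eq, h, mul_pow, mul_assoc]
    have h2 : zetaUnit hζ ^ r ∈ eigSub σ (c ^ k) p := by
      rw [h1]
      exact Subgroup.mul_mem _ hu (Subgroup.inv_mem _ (pow_mem_eigSub _ _ _ _))
    have h3 := zetaUnit_pow_eq_one_of_mem hp hζ σ c k hσ hc hk r h2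
    apply hnp
    exact ⟨s * w, by rw [h, h3, one_mul, mul_pow]⟩
  obtain ⟨a, w, t, ht, h⟩ := main_units σ n hcard hfree hfix hnp' m hm hm1 u v (conv u hu)
    (conv v hv) hu0
  obtain ⟨r, s, rfl⟩ := torsion_eq_zeta_pow_mul hp hζ t ht
  have h1 : zetaUnit hζ ^ r = v * (u ^ a)⁻¹ * ((s * w) ^ p)⁻¹ := by
    rw [eq_mul_inv_iff_mul_eq, eq_mul_inv_iff_mul_eq, h, mul_pow]
    ac_rfl
  have h2 : zetaUnit hζ ^ r ∈ eigSub σ (c ^ k) p := by
    rw [h1]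
    exact Subgroup.mul_mem _ (Subgroup.mul_mem _ hv (Subgroup.inv_mem _ (Subgroup.zpow_mem _ hu a)))
      (Subgroup.inv_mem _ (pow_mem_eigSub _ _ _ _))
  have h3 := zetaUnit_pow_eq_one_of_mem hp hζ σ c k hσ hc hk r h2
  rw [h3, one_mul] at h
  refine ⟨(a % p).toNat, u ^ (a / p) * (s * w), ?_⟩
  have hpa : a = ((a % p).toNat : ℤ) + (a / p) * p := by
    have h0 : 0 ≤ a % (p : ℤ) := Int.emod_nonneg _ (by exact_mod_cast hp'.ne_zero)
    rw [Int.toNat_of_nonneg h0, mul_comm]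
    exact (Int.emod_add_mul_ediv a p).symm
  rw [h]
  conv_lhs => rw [hpa]
  rw [zpow_add, zpow_natCast, zpow_mul, zpow_natCast, mul_pow, mul_pow]
  simp only [mul_assoc]

/-- **UDIR** (K5 of blueprint 6), in the `IsEigenUnit` shape of `CoreIface`, for general even `k`
with `(p - 1) ∤ k`.  -/
theorem udir (hp : p ≠ 2) {ζ : K} (hζ : IsPrimitiveRoot ζ p) (k : ℕ) (hk : Even k)
    (hk' : ¬ (p - 1) ∣ k) (u v : (𝓞 K)ˣ)
    (hu : ∀ (σ : K ≃ₐ[ℚ] K) (c : ℕ), σ ζ = ζ ^ c → ∃ ε : (𝓞 K)ˣ,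
      σ ((u : 𝓞 K) : K) = ((u : 𝓞 K) : K) ^ (c ^ k) * ((ε : 𝓞 K) : K) ^ p)
    (hv : ∀ (σ : K ≃ₐ[ℚ] K) (c : ℕ), σ ζ = ζ ^ c → ∃ ε : (𝓞 K)ˣ,
      σ ((v : 𝓞 K) : K) = ((v : 𝓞 K) : K) ^ (c ^ k) * ((ε : 𝓞 K) : K) ^ p)
    (hnp : ¬ ∃ w : (𝓞 K)ˣ, u = w ^ p) :
    ∃ (j : ℕ) (w : (𝓞 K)ˣ), v = u ^ j * w ^ p := by
  have hp' := (Fact.out : p.Prime)
  haveI : NeZero p := ⟨hp'.ne_zero⟩
  haveI := ZMod.isCyclic_units_prime hp'
  obtain ⟨g, hg⟩ := IsCyclic.exists_generator (α := (ZMod p)ˣ)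
  have hord : orderOf g = p - 1 := by
    rw [orderOf_eq_card_of_forall_mem_zpowers hg, Nat.card_eq_fintype_card, ZMod.card_units]
  obtain ⟨c, hcdef⟩ : ∃ c : ℕ, c = (g : ZMod p).val := ⟨_, rfl⟩
  have hcg : (c : ZMod p) = g := by rw [hcdef]; exact ZMod.natCast_zmod_val _
  have hc : orderOf (c : ZMod p) = p - 1 := by rw [hcg, orderOf_units, hord]
  obtain ⟨σ, hσdef⟩ : ∃ σ : K ≃ₐ[ℚ] K, IsCyclotomicExtension.Rat.galEquivZMod p K σ = g :=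
    ⟨(IsCyclotomicExtension.Rat.galEquivZMod p K).symm g, MulEquiv.apply_symm_apply _ _⟩
  have hσ : σ ζ = ζ ^ c := by
    rw [IsCyclotomicExtension.Rat.galEquivZMod_apply_of_pow_eq p K σ hζ.pow_eq_one, hσdef, hcdef]
  have conv : ∀ x : (𝓞 K)ˣ, (∃ ε : (𝓞 K)ˣ,
      σ ((x : 𝓞 K) : K) = ((x : 𝓞 K) : K) ^ (c ^ k) * ((ε : 𝓞 K) : K) ^ p) →
      x ∈ eigSub σ (c ^ k) p := by
    rintro x ⟨ε, hε⟩
    rw [mem_eigSub]
    refine ⟨ε, units_ext_coe ?_⟩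
    rw [coe_unitsMap, hε]
    simp
  exact udir_gen hp hζ σ c hσ hc k hk hk' u v (conv u (hu σ c hσ)) (conv v (hv σ c hσ)) hnp

end Fermat.Agent.S14.UDir99
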