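/-
S14 / K5 (UDIR), helper99.  Adapter of `UDir99.udir` to the `IsEigenUnit` shape of `CoreIface`.
-/
import Mathlib
import Fermat.Agent.S14.CoreIface
import Fermat.Agent.S14.UDir99.Cyclo

set_option autoImplicit false

namespace Fermat.Agent.S14.UDir99

open NumberField

/-- **K5 / UDIR** in `CoreIface` vocabulary: the `ω^2`-eigenspace of `E/E^p` is at most
one-dimensional.  If `η₀` and `η` are `ω^2`-eigen units and `η₀` is not a `p`-th power, then
`η = η₀ ^ j * w ^ p`. -/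
theorem udir_isEigenUnit (p : ℕ) [Fact p.Prime] (K : Type) [Field K] [NumberField K]
    [IsCyclotomicExtension {p} ℚ K] (hp5 : 5 ≤ p) (ζ : K) (hζ : IsPrimitiveRoot ζ p)
    (η₀ η : (𝓞 K)ˣ) (h0 : IsEigenUnit p K ζ η₀) (h : IsEigenUnit p K ζ η)
    (hnp : ¬ ∃ w : (𝓞 K)ˣ, η₀ = w ^ p) :
    ∃ (j : ℕ) (w : (𝓞 K)ˣ), η = η₀ ^ j * w ^ p := by
  have hp2 : p ≠ 2 := by omega
  have hk' : ¬ (p - 1) ∣ 2 := fun hd => by
    have := Nat.le_of_dvd (by norm_num) hd
    omega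
  exact udir hp2 hζ 2 (by norm_num) hk' η₀ η h0 h hnp

end Fermat.Agent.S14.UDir99
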